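/-
S44 / F / Dual / WIP (helper227).  NODE (ASM): `FDualA` from the nodes

* (INT)  `int_of_polar`  : `b ∈ L(m ∞)` with `A`-integral polar part  ⇒  `b - b₀ ∈ A((q))`;
* (DIM)  `exists_form_of_perp` : for `m` large, a vector orthogonal to the polar parts of `L(m ∞)`
                           is the beginning of the `q`-expansion of a cusp form;
* (RES') `coeff_zero_red_mul_dl`, (TRANSFER) `dvd_ord_EA`, (LIN) `lin`, (ORD0) proved here.

The two statements with `sorry` below are the exact statements of (INT) and (DIM).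
-/
import Fermat.Agent.S44.F.ADefs
import Fermat.Agent.S44.F.Pow
import Fermat.Agent.S44.F.Dual.Lin
import Fermat.Agent.S44.F.Dual.WIP.ResPrime2
import Fermat.Agent.S44.F.Dual.WIP.Transfer
import Fermat.Agent.S49.Basic

set_option autoImplicit false

noncomputable section

namespace Fermat.Agent.S44.F

open ModularCurve AlgebraicCurve IntermediateField Fermat.Agent.S24 Fermat.Agent.GAL
open CongruenceSubgroup ModularFormClass

/-- NODE (INT) -/
theorem int_of_polar (p M : ℕ) [NeZero M] (hp : p.Prime) (hpM : ¬ p ∣ M)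
    (A : ValuationSubring Qb) (hA : A.LiesOverPrime p) (m : ℕ) (b : FN M) (hb : b ∈ Linf M m)
    (hint : ∀ n : ℕ, 1 ≤ n → n ≤ m → (b : LaurentSeries Kbar).coeff (-(n : ℤ)) ∈ A) :
    ∃ H : LaurentSeries A, E.incl A H =
      (b : LaurentSeries Kbar) - HahnSeries.C ((b : LaurentSeries Kbar).coeff 0) := by
  sorry

/-- NODE (DIM) -/
theorem exists_form_of_perp (M : ℕ) [NeZero M] :
    ∃ D₀ : ℕ, ∀ m : ℕ, D₀ ≤ m → ∀ y : Fin m → Kbar,
      (∀ b ∈ Linf M m, ∑ i : Fin m, (b : LaurentSeries Kbar).coeff (-((i : ℤ) + 1)) * y i = 0) →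
        ∃ f : CuspForm (Gamma0 M) 2, ∀ i : Fin m, qCoeff f ((i : ℕ) + 1) = iota (y i) := by
  sorry

/-! ### Series lemmas -/

section Series

variable {k : Type*} [Field k]

/-- the constant term of `G * ψ`, `G` with a pole of order `≤ m`, `ψ` a power series -/
theorem coeff_zero_mul_coe (G : LaurentSeries k) (m : ℕ) (hG : ∀ i : ℤ, i < -(m : ℤ) → G.coeff i = 0)
    (ψ : PowerSeries k) :
    (G * (ψ : LaurentSeries k)).coeff 0 =
      ∑ n ∈ Finset.range (m + 1), G.coeff (-(n : ℤ)) * PowerSeries.coeff n ψ := by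
  set G' : PowerSeries k := PowerSeries.mk fun i => G.coeff ((i : ℤ) - m) with hG'
  have h1 : G = HahnSeries.single (-(m : ℤ)) 1 * (G' : LaurentSeries k) := by
    ext i
    rw [HahnSeries.coeff_single_mul, one_mul, PowerSeries.coeff_coe]
    split_ifs with hi
    · exact hG i (by omega)
    · rw [hG', PowerSeries.coeff_mk]
      congr 1
      omega
  conv_lhs => rw [h1, mul_assoc, ← PowerSeries.coe_mul, HahnSeries.coeff_single_mul, one_mul]
  have h2 : (0 : ℤ) - -(m : ℤ) = (m : ℤ) := by ring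
  rw [h2, LaurentSeries.coeff_coe_powerSeries, mul_comm, PowerSeries.coeff_mul,
    Finset.Nat.sum_antidiagonal_eq_sum_range_succ_mk]
  refine Finset.sum_congr rfl fun n hn => ?_
  rw [Finset.mem_range] at hn
  rw [hG', PowerSeries.coeff_mk, mul_comm]
  congr 2
  push_cast [Nat.cast_sub (Nat.lt_succ_iff.mp hn)]
  ring

/-- (ORD0), series part: the constant term of `dl u` is the order of `u` -/
theorem coeff_zero_dl (u : LaurentSeries k) (hu : u ≠ 0) : (dl u).coeff 0 = (u.order : k) := by
  have h1 := LaurentSeries.single_order_mul_powerSeriesPart u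
  set g := LaurentSeries.powerSeriesPart u with hg
  have hg0 : PowerSeries.constantCoeff g ≠ 0 := by
    rw [← PowerSeries.coeff_zero_eq_constantCoeff_apply, hg, LaurentSeries.powerSeriesPart_coeff]
    simpa using HahnSeries.coeff_order_eq_zero.not.2 hu
  have hgne : (g : LaurentSeries k) ≠ 0 := by
    intro h
    rw [h, mul_zero] at h1
    exact hu h1.symm
  have h2 : (g : LaurentSeries k) * ((g⁻¹ : PowerSeries k) : LaurentSeries k) = 1 := by
    rw [← PowerSeries.coe_mul, PowerSeries.mul_inv_cancel g hg0, PowerSeries.coe_one]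
  obtain ⟨ψ, hψ⟩ := exists_theta_coe g
  have hψ0 : PowerSeries.constantCoeff ψ = 0 := by
    have := congrArg (fun z : LaurentSeries k => z.coeff 0) hψ
    simp only [theta_coeff] at this
    rw [← Nat.cast_zero, LaurentSeries.coeff_coe_powerSeries] at this
    simpa using this
  have h3 : dl (g : LaurentSeries k) = ((ψ * g⁻¹ : PowerSeries k) : LaurentSeries k) := by
    unfold dl
    rw [PowerSeries.coe_mul, hψ, div_eq_iff hgne, mul_assoc,
      mul_comm _ (g : LaurentSeries k), h2, mul_one]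
  have h4 : (((ψ * g⁻¹ : PowerSeries k) : LaurentSeries k)).coeff 0 = 0 := by
    rw [← Nat.cast_zero, LaurentSeries.coeff_coe_powerSeries,
      PowerSeries.coeff_zero_eq_constantCoeff_apply, map_mul, hψ0, zero_mul]
  conv_lhs => rw [← h1]
  rw [dl_mul (HahnSeries.single_ne_zero one_ne_zero) hgne, dl_single, h3, HahnSeries.coeff_add,
    h4, add_zero, HahnSeries.C_apply, HahnSeries.coeff_single_same]

end Series

/-! ### The assembly -/

/-- the polar part (coefficients of `q⁻¹, …, q⁻ᵐ`) -/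
def ppMap (M m : ℕ) : FN M →ₗ[Kbar] (Fin m → Kbar) where
  toFun := fun b i => (b : LaurentSeries Kbar).coeff (-((i : ℤ) + 1))
  map_add' := fun b c => by
    ext i
    simp
  map_smul' := fun c b => by
    ext i
    have : ((c • b : FN M) : LaurentSeries Kbar) = HahnSeries.C c * (b : LaurentSeries Kbar) := by
      rw [Algebra.smul_def]
      show algebraMap Kbar (LaurentSeries Kbar) c * (b : LaurentSeries Kbar) = _
      rw [Fermat.Agent.Lib.LaurentSubst.algebraMap_eq_C]
    simp only [this, HahnSeries.C_mul_eq_smul, HahnSeries.coeff_smul, RingHom.id_apply,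
      Pi.smul_apply]

@[simp] theorem ppMap_apply (M m : ℕ) (b : FN M) (i : Fin m) :
    ppMap M m b i = (b : LaurentSeries Kbar).coeff (-((i : ℤ) + 1)) := rfl

theorem aForm_mono {A : ValuationSubring Qb} {M m m' : ℕ} (h : m ≤ m') {y : ℕ → A}
    (hy : AForm A M m' y) : AForm A M m y := by
  obtain ⟨f, hf⟩ := hy
  exact ⟨f, fun n hn => hf n (hn.trans h)⟩

theorem fDualA : FDualA := by
  intro p M _ hp _ hsq A hA ubar hu0 hdiv m₀
  have hpM : ¬ p ∣ M := by
    intro h
    obtain ⟨c, rfl⟩ := h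
    have h1 : p * p ∣ p * c * p := ⟨c, by ring⟩
    exact hp.one_lt.ne' (Nat.isUnit_iff.mp (hsq p h1))
  have : CharP (kA A) p := E.charP_residueField A p hp hA
  obtain ⟨D₀, hD₀⟩ := exists_form_of_perp M
  set m := max m₀ D₀ with hm
  -- the element of `EA`
  set u' : EA A M := ⟨(ubar : LaurentSeries (kA A)), Fk_le_EAf M A ubar.2⟩ with hu'
  have hu0' : (ubar : LaurentSeries (kA A)) ≠ 0 := fun h => hu0 (Subtype.ext h)
  have hu'0 : u' ≠ 0 := fun h => hu0' (congrArg Subtype.val h)
  have hdiv' : ∀ w : Place (kA A) (EA A M), (p : ℤ) ∣ w.ord u' :=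
    dvd_ord_EA p M hp hpM A hA ubar hdiv
  obtain ⟨ψ, hψ⟩ := fPow (kA A) (ubar : LaurentSeries (kA A)) hu0'
  -- (ORD0)
  have hord0 : (dl (ubar : LaurentSeries (kA A))).coeff 0 = 0 := by
    rw [coeff_zero_dl _ hu0']
    have h1 := hdiv' (ooE A M)
    rw [ord_ooE A M u' hu'0] at h1
    obtain ⟨c, hc⟩ := h1
    have h2 : (ubar : LaurentSeries (kA A)).order = (p : ℤ) * c := hc
    rw [h2]
    push_cast
    rw [CharP.cast_eq_zero, zero_mul]
  -- (LIN)
  set P : Submodule Kbar (Fin m → Kbar) := (Linf M m).map (ppMap M m) with hP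
  set φ : Fin m → kA A := fun i => PowerSeries.coeff ((i : ℕ) + 1) ψ with hφ
  have hψ0 : PowerSeries.coeff 0 ψ = 0 := by
    have := LaurentSeries.coeff_coe_powerSeries ψ 0
    rw [Nat.cast_zero, hψ, hord0] at this
    exact this.symm
  have hlin : ∀ x : Fin m → A, (fun i => (x i : Kbar)) ∈ P →
      ∑ i, IsLocalRing.residue A (x i) * φ i = 0 := by
    intro x hx
    obtain ⟨b, hb, hbx⟩ := hx
    have hbx' : ∀ i : Fin m, (b : LaurentSeries Kbar).coeff (-((i : ℤ) + 1)) = (x i : Kbar) :=
      fun i => congrFun hbx i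
    obtain ⟨H, hH⟩ := int_of_polar p M hp hpM A hA m b hb (fun n h1 hn => by
      have := hbx' ⟨n - 1, by omega⟩
      have e : -(((⟨n - 1, by omega⟩ : Fin m) : ℕ) : ℤ) - 1 = -(n : ℤ) := by
        push_cast [Nat.cast_sub h1]
        ring
      rw [neg_add, ← sub_eq_add_neg, e] at this
      rw [this]
      exact (x _).2)
    -- `H` is in the function field and in `L(m ∞)`
    have hC : HahnSeries.C ((b : LaurentSeries Kbar).coeff 0) ∈ modularFunctionFieldBar M := by
      rw [← Fermat.Agent.Lib.LaurentSubst.algebraMap_eq_C]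
      exact (modularFunctionFieldBar M).algebraMap_mem _
    have hHmem : E.incl A H ∈ modularFunctionFieldBar M := by
      rw [hH]
      exact sub_mem b.2 hC
    have hHL : (⟨E.incl A H, hHmem⟩ : FN M) ∈ Linf M m := by
      have e : (⟨E.incl A H, hHmem⟩ : FN M) =
          b - algebraMap Kbar (FN M) ((b : LaurentSeries Kbar).coeff 0) := by
        apply Subtype.ext
        show E.incl A H = _
        rw [hH, ← Fermat.Agent.Lib.LaurentSubst.algebraMap_eq_C]
        rfl
      rw [e]
      refine sub_mem hb ?_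
      rw [Algebra.algebraMap_eq_smul_one]
      refine Submodule.smul_mem _ _ ?_
      rw [mem_riemannRochSpace_iff]
      intro v
      refine Or.inr ?_
      rw [Place.ord_one]
      by_cases hv : v = S17.W.cusp M
      · subst hv
        rw [Finsupp.single_eq_same]
        simp
      · rw [Finsupp.single_eq_of_ne hv]
        simp
    have hres := coeff_zero_red_mul_dl p M hp hpM A hA u' hu'0 hdiv' m H hHmem hHL
    have hu'c : ((u' : EA A M) : LaurentSeries (kA A)) = (ubar : LaurentSeries (kA A)) := rfl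
    rw [hu'c, ← hψ, coeff_zero_mul_coe (E.red A H) m (fun i hi => by
      rw [E.coeff_red, coeff_eq_zero_of_mem_Linf A m H hHmem hHL i hi, map_zero]) ψ,
      Finset.sum_range_succ', hψ0, mul_zero, add_zero, ← Fin.sum_univ_eq_sum_range
        (fun n => (E.red A H).coeff (-((n + 1 : ℕ) : ℤ)) * PowerSeries.coeff (n + 1) ψ) m] at hres
    rw [← hres]
    refine Finset.sum_congr rfl fun i _ => ?_
    congr 1
    rw [E.coeff_red]
    congr 1
    apply Subtype.ext
    rw [← hbx' i, ← E.coeff_incl, hH, HahnSeries.coeff_sub, HahnSeries.C_apply,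
      HahnSeries.coeff_single_of_ne (by omega), sub_zero]
    push_cast
    rfl
  obtain ⟨y, hyP, hyφ⟩ := lin A m P φ hlin
  -- (DIM)
  obtain ⟨f, hf⟩ := hD₀ m (le_max_right _ _) (fun i => (y i : Kbar)) (fun b hb =>
    hyP _ ⟨b, hb, rfl⟩)
  set Y : ℕ → A := fun n => if h : 1 ≤ n ∧ n ≤ m then y ⟨n - 1, by omega⟩ else 0 with hY
  have hY0 : Y 0 = 0 := dif_neg (by omega)
  have hYn : ∀ i : Fin m, Y ((i : ℕ) + 1) = y i := by
    intro i
    have h1 : 1 ≤ (i : ℕ) + 1 ∧ (i : ℕ) + 1 ≤ m := ⟨by omega, i.2⟩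
    simp only [hY, dif_pos h1]
    congr 1
  refine ⟨Y, aForm_mono (m' := m) (le_max_left _ _) ⟨f, fun n hn => ?_⟩, fun n hn => ?_⟩
  · rcases Nat.eq_zero_or_pos n with rfl | hn1
    · rw [S49.qCoeff_zero_index, hY0]
      simp
    · obtain ⟨i, rfl⟩ : ∃ i : Fin m, n = (i : ℕ) + 1 := ⟨⟨n - 1, by omega⟩, by simp; omega⟩
      rw [hYn, hf]
  · rcases Nat.eq_zero_or_pos n with rfl | hn1
    · rw [hY0, map_zero]
      exact_mod_cast hord0
    · have hnm : n ≤ m := hn.trans (le_max_left _ _)
      obtain ⟨i, rfl⟩ : ∃ i : Fin m, n = (i : ℕ) + 1 := ⟨⟨n - 1, by omega⟩, by simp; omega⟩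
      rw [hYn, hyφ, ← hψ, LaurentSeries.coeff_coe_powerSeries]

end Fermat.Agent.S44.F

end
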