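/-
S44 / F / Dual (sub-architect helper100).  NODE BASE: a function `t ∈ FN M` (`p ∤ M`) whose only pole is the cusp
`∞`, of order `d` prime to `p`, with `q`-expansion in `A((q))` and leading coefficient `1`.

CONSTRUCTION: `t = j * u^(-κ)`, `u = D.u` the modular unit of `S28.UData` (`D` from
`S28.Export.exists_good_UData M p hpM`), `κ ∈ {n, n+1}`, `n = D.n = [F : K(j)]`.
Write `χ = Y^n + c_1 Y^(n-1) + .. + c_n`, `c_i = χ.coeff (n - i) ∈ ℤ_(p)[j]`, `deg c_i ≤ i w`,
`c_(n-1)` of exact degree `(n-1) w` (unit leading coefficient), `χ(j, u) = 0`, `u = q^(d₀) (1 + ..)`, `d₀ = (n-1) w`.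
* (B1) `c_n` is a nonzero constant: `c_n(j) = - u (u^(n-1) + c_1 u^(n-2) + .. + c_(n-1))` has `q`-order
  `≥ d₀ - d₀ = 0`, and a polynomial in `j` without pole is constant (`S28.coeff_evalJ`/`ordGE_evalJ`); it is `≠ 0`
  because `χ` is irreducible (`S18.Vert.irreducible_chiS`) [if `n = 1`, because `u ≠ 0`].  Hence `u` and `u⁻¹` are integral
  over `K[j]` and `ord_v u = 0` at every place with `ord_v j ≥ 0`.
* (B2) `[F : K(u)] ≤ d₀` if `d₀ > 0`: `F = K(j, u)` (`bigK_eq_full`, `bar_eq_full`) and `j` is a root of the nonzero polynomial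
  `χ(X, u) ∈ K(u)[X]` of degree `≤ d₀` in `X` (coefficient of `X^(d₀)` is `lead(c_(n-1)) u + ..`; it is enough that
  the polynomial is nonzero: `u` is transcendental and `χ ≠ 0`).
* (B3) a place `v` with `ord_v j = -e < 0` and `a = ord_v u ≥ 0`: in `χ(j,u) = 0` the term `c_(n-1) u` has order
  `a - e d₀`, all the terms `c_i u^(n-i)`, `i < n-1`, have strictly larger order, `c_n` has order `0`; so `a = e d₀`.
  If `d₀ > 0`, `v` is a zero of `u`; the zeros of `u` have total multiplicity `[F : K(u)] ≤ d₀`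
  (`FF.exists_finset_ord_pos`) and the cusp contributes `d₀` (`S17.W.ord_cusp`): `v = cusp`.
  If `d₀ = 0` then `n = 1`, `[F : K(j)] = 1` and `j` has only one pole.
* (B4) `∑_{poles of j} e_v = n` (`FF.exists_finset_ord_neg`, `S28.Export.relfinrank_full_bar`/`S24.CL.finrank_eq_index'`), so `e_v ≤ n ≤ κ`.
-/
import Fermat.Agent.S44.F.Dual.Base.Unit
import Fermat.Agent.S44.F.Dual.Base.Degree
import Fermat.Agent.S44.F.Dual.Base.Cusps
import Fermat.Agent.S44.F.Dual.Base.Main

-- NODE BASE IS COMPLETE (no open hole).  Re-export stub: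
-- uK_mem, uF, uF_ne_zero, order_uF, ord_uF_eq_zero (B1): `Dual/Base/Unit.lean`
-- finrank_uF_le (B2): `Dual/Base/Degree.lean`
-- ord_uF_of_nonneg, ord_uF_neg, neg_ord_jF_le (B3): `Dual/Base/Cusps.lean`
-- exists_integral_jF_mul, exists_base (B4): `Dual/Base/Main.lean` (core in `Dual/Base/MainCore.lean`)
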