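/-
S44 / F / Dual (sub-architect helper100).  NODE FFE is proved: see `Fermat/Agent/S44/F/Dual/FFE.lean`.
This file only re-exports it.
-/
import Fermat.Agent.S44.F.Dual.FFE
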