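/-
S44 / F / Dual.  NODE RES' is final: see `Fermat/Agent/S44/F/Dual/ResPrime.lean`.  Re-export stub.
-/
import Fermat.Agent.S44.F.Dual.ResPrime
import Fermat.Agent.S44.F.Dual.Transfer
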